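import Mathlib

set_option autoImplicit false

namespace Fermat.Agent.S49

universe u

/-- In a Noetherian commutative ring, every prime ideal contains a prime ideal which is the
annihilator of an element. -/
theorem exists_prime_ann_le {R : Type*} [CommRing R] [IsNoetherianRing R] (𝔫 : Ideal R)
    [h𝔫 : 𝔫.IsPrime] :
    ∃ (x : R) (𝔭 : Ideal R), 𝔭.IsPrime ∧ 𝔭 ≤ 𝔫 ∧ ∀ r, r ∈ 𝔭 ↔ r * x = 0 := by
  classical
  let ann : R → Ideal R := fun x => LinearMap.ker (LinearMap.toSpanSingleton R R x)
  have hann : ∀ x r, r ∈ ann x ↔ r * x = 0 := by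
    intro x r
    simp [ann, LinearMap.mem_ker, LinearMap.toSpanSingleton_apply]
  let Sg : Set (Ideal R) := {I | ∃ x, I = ann x ∧ I ≤ 𝔫}
  have hne : Sg.Nonempty :=
    ⟨ann 1, 1, rfl, fun r hr => by
      rw [hann, mul_one] at hr
      rw [hr]
      exact 𝔫.zero_mem⟩
  obtain ⟨𝔭, ⟨x, rfl, hle⟩, hmax⟩ :=
    set_has_maximal_iff_noetherian.mpr (inferInstance : IsNoetherian R R) Sg hne
  have hmono : ∀ s, ann x ≤ ann (s * x) := by
    intro s r hr
    rw [hann] at hr ⊢
    rw [mul_left_comm, hr, mul_zero]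
  -- maximality: any annihilator `ann (s * x)` inside `𝔫` equals `ann x`
  have hkey : ∀ s, ann (s * x) ≤ 𝔫 → ann (s * x) ≤ ann x := by
    intro s hs
    have h1 : ¬ ann x < ann (s * x) := hmax _ ⟨s * x, rfl, hs⟩
    by_contra hcon
    exact h1 (lt_of_le_not_ge (hmono s) hcon)
  refine ⟨x, ann x, ?_, hle, hann x⟩
  refine ⟨?_, ?_⟩
  · intro htop
    exact h𝔫.ne_top (top_le_iff.mp (htop ▸ hle))
  · intro a b hab
    by_contra hcon
    push Not at hcon
    obtain ⟨ha, hb⟩ := hcon
    have hab' : a * b * x = 0 := (hann x _).mp hab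
    by_cases hA : ann (a * x) ≤ 𝔫
    · apply hb
      apply hkey a hA
      rw [hann]
      rw [← hab']
      ring
    · obtain ⟨t, ht, htn⟩ := SetLike.not_le_iff_exists.mp hA
      have htax : t * (a * x) = 0 := (hann _ _).mp ht
      by_cases hB : ann (t * x) ≤ 𝔫
      · apply ha
        apply hkey t hB
        rw [hann]
        rw [← htax]
        ring
      · obtain ⟨t', ht', ht'n⟩ := SetLike.not_le_iff_exists.mp hB
        have h2 : t' * t ∈ ann x := by
          rw [hann, mul_assoc]
          exact (hann _ _).mp ht'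
        rcases h𝔫.mem_or_mem (hle h2) with h3 | h3
        · exact ht'n h3
        · exact htn h3

/-- A commuting family of endomorphisms of a nonzero finite-dimensional vector space over an
algebraically closed field has a common eigenvector. -/
theorem exists_common_eigenvector_aux {K : Type*} [Field K] [IsAlgClosed K] {ι : Type*} :
    ∀ (n : ℕ) (V : Type u) [AddCommGroup V] [Module K V] [FiniteDimensional K V] [Nontrivial V],
      Module.finrank K V = n →
      ∀ (T : ι → Module.End K V), (∀ i j, Commute (T i) (T j)) →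
        ∃ v : V, v ≠ 0 ∧ ∀ i, ∃ c : K, T i v = c • v := by
  intro n
  induction n using Nat.strong_induction_on with
  | _ n ih =>
    intro V _ _ _ _ hn T hT
    by_cases hsc : ∀ i, ∃ c : K, ∀ v, T i v = c • v
    · obtain ⟨v, hv⟩ := exists_ne (0 : V)
      exact ⟨v, hv, fun i => (hsc i).imp fun c hc => hc v⟩
    · push Not at hsc
      obtain ⟨i, hi⟩ := hsc
      obtain ⟨μ, hμ⟩ := Module.End.exists_eigenvalue (T i)
      set W : Submodule K V := (T i).eigenspace μ with hW
      have hWne : W ≠ ⊥ := hμ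
      have hWtop : W ≠ ⊤ := by
        intro htop
        obtain ⟨v, hv⟩ := hi μ
        apply hv
        have : v ∈ W := htop ▸ Submodule.mem_top
        exact Module.End.mem_eigenspace_iff.mp this
      have hlt : Module.finrank K W < n := hn ▸ Submodule.finrank_lt hWtop
      have hinv : ∀ j, ∀ w ∈ W, T j w ∈ W := by
        intro j w hw
        rw [hW, Module.End.mem_eigenspace_iff] at hw ⊢
        have h1 : T i (T j w) = T j (T i w) := by
          have := congrArg (fun f : Module.End K V => f w) (hT i j).eq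
          simpa using this
        rw [h1, hw, map_smul]
      have : Nontrivial W := Submodule.nontrivial_iff_ne_bot.mpr hWne
      let T' : ι → Module.End K W := fun j => (T j).restrict (hinv j)
      have hT' : ∀ j j', Commute (T' j) (T' j') := by
        intro j j'
        apply LinearMap.ext
        intro w
        apply Subtype.ext
        have := congrArg (fun f : Module.End K V => f (w : V)) (hT j j').eq
        simpa [T'] using this
      obtain ⟨w, hw0, hw⟩ := ih _ hlt W rfl T' hT'
      refine ⟨(w : V), fun h => hw0 (Subtype.ext h), fun j => ?_⟩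
      obtain ⟨c, hc⟩ := hw j
      refine ⟨c, ?_⟩
      have := congrArg Subtype.val hc
      simpa [T'] using this

theorem exists_common_eigenvector {K : Type*} [Field K] [IsAlgClosed K] {ι : Type*}
    {V : Type*} [AddCommGroup V] [Module K V] [FiniteDimensional K V] [Nontrivial V]
    (T : ι → Module.End K V) (hT : ∀ i j, Commute (T i) (T j)) :
    ∃ v : V, v ≠ 0 ∧ ∀ i, ∃ c : K, T i v = c • v :=
  exists_common_eigenvector_aux _ V rfl T hT


/-- A commutative Noetherian ring `H`, integral over `ℤ`, acting faithfully on a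
finite-dimensional complex vector space: every prime ideal `𝔫` of `H` contains the kernel of a
character of `H` occurring in `V`. -/
theorem exists_eigenvector_ker_le {H : Type*} [CommRing H] [IsNoetherianRing H]
    [Algebra.IsIntegral ℤ H] {V : Type*} [AddCommGroup V] [Module ℂ V] [FiniteDimensional ℂ V]
    (φ : H →+* Module.End ℂ V) (hφ : Function.Injective φ) (𝔫 : Ideal H) [𝔫.IsPrime] :
    ∃ v : V, v ≠ 0 ∧ ∃ χ : H →+* ℂ, (∀ t, φ t v = χ t • v) ∧ RingHom.ker χ ≤ 𝔫 := by
  classical
  obtain ⟨x, 𝔭, h𝔭, hle, hx⟩ := exists_prime_ann_le 𝔫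
  have hx0 : φ x ≠ 0 := by
    intro h0
    have : x = 0 := hφ (by rw [h0, map_zero])
    apply h𝔭.ne_top
    rw [Ideal.eq_top_iff_one, hx, this, mul_zero]
  set W : Submodule ℂ V := LinearMap.range (φ x) with hW
  have hWne : W ≠ ⊥ := by
    intro h0
    apply hx0
    exact LinearMap.range_eq_bot.mp h0
  have hinv : ∀ t, ∀ w ∈ W, φ t w ∈ W := by
    rintro t w ⟨u, rfl⟩
    refine ⟨φ t u, ?_⟩
    have h1 : φ x * φ t = φ t * φ x := by rw [← map_mul, ← map_mul, mul_comm]
    exact congrArg (fun f : Module.End ℂ V => f u) h1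
  have : Nontrivial W := Submodule.nontrivial_iff_ne_bot.mpr hWne
  let T : H → Module.End ℂ W := fun t => (φ t).restrict (hinv t)
  have hT : ∀ s t, Commute (T s) (T t) := by
    intro s t
    apply LinearMap.ext
    intro w
    apply Subtype.ext
    have h1 : φ s * φ t = φ t * φ s := by rw [← map_mul, ← map_mul, mul_comm]
    have := congrArg (fun f : Module.End ℂ V => f (w : V)) h1
    simpa [T] using this
  obtain ⟨w, hw0, hw⟩ := exists_common_eigenvector T hT
  choose χ hχ using hw
  have hv0 : (w : V) ≠ 0 := fun h => hw0 (Subtype.ext h)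
  have hχ' : ∀ t, φ t (w : V) = χ t • (w : V) := by
    intro t
    have := congrArg Subtype.val (hχ t)
    simpa [T] using this
  have hinj : ∀ c d : ℂ, c • (w : V) = d • (w : V) → c = d := fun c d h =>
    smul_left_injective ℂ hv0 h
  let χr : H →+* ℂ :=
    { toFun := χ
      map_one' := by
        apply hinj
        rw [← hχ', map_one, one_smul, Module.End.one_apply]
      map_mul' := by
        intro s t
        apply hinj
        rw [← hχ', map_mul, Module.End.mul_apply, hχ', map_smul, hχ', smul_smul, mul_comm]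
      map_zero' := by
        apply hinj
        rw [← hχ', map_zero, zero_smul, LinearMap.zero_apply]
      map_add' := by
        intro s t
        apply hinj
        rw [← hχ', map_add, LinearMap.add_apply, hχ', hχ', add_smul] }
  refine ⟨(w : V), hv0, χr, hχ', ?_⟩
  have hχr : ∀ t, χr t = χ t := fun _ => rfl
  -- `𝔭 ≤ ker χ`
  have h𝔭le : 𝔭 ≤ RingHom.ker χr := by
    intro t ht
    rw [RingHom.mem_ker, hχr]
    obtain ⟨u, hu⟩ : (w : V) ∈ W := w.2
    apply hinj
    rw [← hχ', zero_smul, ← hu]
    have h1 : φ t * φ x = 0 := by rw [← map_mul, (hx t).mp ht, map_zero]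
    exact congrArg (fun f : Module.End ℂ V => f u) h1
  -- `ker χ ∩ ℤ = 0`
  have hcomap : (RingHom.ker χr).comap (algebraMap ℤ H) = ⊥ := by
    rw [eq_bot_iff]
    intro n hn
    rw [Ideal.mem_comap, RingHom.mem_ker] at hn
    rw [Ideal.mem_bot]
    have h2 : χr (algebraMap ℤ H n) = (n : ℂ) := by simp
    rw [h2] at hn
    exact_mod_cast hn
  refine le_trans ?_ hle
  intro t ht
  by_contra htp
  have hlt := Ideal.comap_lt_comap_of_integral_mem_sdiff (R := ℤ) h𝔭le ⟨ht, htp⟩
    (Algebra.IsIntegral.isIntegral t)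
  rw [hcomap] at hlt
  exact not_lt_bot hlt

/-- Integrality of the character and a maximal ideal of `ℤ̄` over `𝔫`. -/
theorem exists_maximal_over {H : Type*} [CommRing H] [Algebra.IsIntegral ℤ H] (χ : H →+* ℂ)
    (𝔫 : Ideal H) [𝔫.IsMaximal] (hker : RingHom.ker χ ≤ 𝔫) :
    ∃ χ' : H →+* integralClosure ℤ ℂ, (∀ t, ((χ' t : integralClosure ℤ ℂ) : ℂ) = χ t) ∧
      ∃ 𝔪 : Ideal (integralClosure ℤ ℂ), 𝔪.IsMaximal ∧ 𝔪.comap χ' = 𝔫 := by
  have hint : ∀ t, χ t ∈ (integralClosure ℤ ℂ).toSubring := fun t =>
    map_isIntegral_int χ (Algebra.IsIntegral.isIntegral t)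
  let χ' : H →+* integralClosure ℤ ℂ := χ.codRestrict (integralClosure ℤ ℂ).toSubring hint
  have hχ' : ∀ t, ((χ' t : integralClosure ℤ ℂ) : ℂ) = χ t := fun _ => rfl
  refine ⟨χ', hχ', ?_⟩
  letI : Algebra H (integralClosure ℤ ℂ) := χ'.toAlgebra
  have hint' : Algebra.IsIntegral H (integralClosure ℤ ℂ) :=
    ⟨fun y => (Algebra.IsIntegral.isIntegral (R := ℤ) y).tower_top⟩
  have hk : RingHom.ker (algebraMap H (integralClosure ℤ ℂ)) ≤ 𝔫 := by
    intro t ht
    apply hker
    rw [RingHom.mem_ker] at ht ⊢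
    have : χ' t = 0 := ht
    rw [← hχ', this]
    rfl
  obtain ⟨Q, hQ, hQc⟩ := Ideal.exists_ideal_over_maximal_of_isIntegral 𝔫 hk
  exact ⟨Q, hQ, hQc⟩

end Fermat.Agent.S49
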