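import Fermat.Statements.S49
import Fermat.Prelude.Def_CuspForm_HeckeAlgebra
import Fermat.Prelude.Def_CuspForm_IntegralStructure
import Fermat.Prelude.Thm_CuspForm_intLattice_fg
import Fermat.Prelude.Thm_CuspForm_mem_intLattice_of_mem_heckeAlgebra
import Fermat.Prelude.Thm_ModularFormClass_qCoeff_heckeT
import Fermat.Prelude.Thm_ModularFormClass_qCoeff_heckeU
import Fermat.Prelude.Thm_CongruenceSubgroup_one_mem_strictPeriods_Gamma0
import Fermat.Agent.S49.Algebra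

set_option autoImplicit false

noncomputable section

namespace Fermat.Agent.S49

open CongruenceSubgroup ModularFormClass UpperHalfPlane

local notation "Γ₀(" N ")" => CongruenceSubgroup.Gamma0 N

theorem one_mem_periods (N : ℕ) :
    (1 : ℝ) ∈ (Subgroup.map (Matrix.SpecialLinearGroup.mapGL ℝ) Γ₀(N)).strictPeriods :=
  CongruenceSubgroup.one_mem_strictPeriods_Gamma0 N

/-- The `n`-th `q`-coefficient as a linear functional on cusp forms. -/
def qC (N : ℕ) (k : ℤ) (n : ℕ) : CuspForm Γ₀(N) k →ₗ[ℂ] ℂ where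
  toFun f := qCoeff ⇑f n
  map_add' f g := by
    simp only [qCoeff, FunLike.coe_add]
    rw [ModularForm.qExpansion_add one_pos (one_mem_periods N) f g, map_add]
  map_smul' c f := by
    simp only [qCoeff, FunLike.coe_smul]
    rw [ModularForm.qExpansion_smul one_pos (one_mem_periods N) c f]
    simp

theorem qC_apply (N : ℕ) (k : ℤ) (n : ℕ) (f : CuspForm Γ₀(N) k) :
    qC N k n f = qCoeff ⇑f n := rfl

theorem qC_zero_index (N : ℕ) (k : ℤ) (f : CuspForm Γ₀(N) k) : qC N k 0 f = 0 := by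
  rw [qC_apply, qCoeff]
  exact CuspFormClass.qExpansion_coeff_zero f one_pos (one_mem_periods N)

theorem eq_zero_of_qC (N : ℕ) (k : ℤ) (f : CuspForm Γ₀(N) k) (h : ∀ n, qC N k n f = 0) :
    f = 0 := by
  have h1 : qExpansion 1 ⇑f = 0 := by
    ext n
    simpa [qC_apply, qCoeff] using h n
  have : Fact (IsCusp OnePoint.infty (Subgroup.map (Matrix.SpecialLinearGroup.mapGL ℝ) Γ₀(N))) :=
    ⟨Subgroup.isCusp_of_mem_strictPeriods one_pos (one_mem_periods N)⟩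
  have h2 : (⇑f : ℍ → ℂ) = 0 :=
    (UpperHalfPlane.qExpansion_eq_zero_iff one_pos
      (SlashInvariantFormClass.periodic_comp_ofComplex f (one_mem_periods N))
      (ModularFormClass.holo f)
      (ModularFormClass.bdd_at_infty f)).mp h1
  exact DFunLike.coe_injective (h2.trans FunLike.coe_zero.symm)

theorem qC_heckeT {N : ℕ} {p : ℕ} (hp : p.Prime) (hpN : ¬ p ∣ N)
    (f : CuspForm Γ₀(N) 2) (n : ℕ) :
    qC N 2 n (CuspForm.heckeTLin 2 hp hpN f) =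
      qC N 2 (n * p) f + if p ∣ n then (p : ℂ) * qC N 2 (n / p) f else 0 := by
  rw [qC_apply, CuspForm.coe_heckeTLin_apply,
    ModularFormClass.qCoeff_heckeT f (one_mem_periods N) hp.ne_zero n, ModularForm.coeffHeckeT]
  simp [qC_apply]

theorem qC_heckeU {N : ℕ} [NeZero N] {p : ℕ} (hp : p.Prime) (hpN : p ∣ N)
    (f : CuspForm Γ₀(N) 2) (n : ℕ) :
    qC N 2 n (CuspForm.heckeULin 2 hpN f) = qC N 2 (n * p) f := by
  rw [qC_apply, CuspForm.coe_heckeULin_apply,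
    ModularFormClass.qCoeff_heckeU f (one_mem_periods N) hp.ne_zero n, ModularForm.coeffHeckeU]
  rfl


section lattice

variable {N : ℕ}

theorem mem_intLattice_iff' (f : CuspForm Γ₀(N) 2) :
    f ∈ CuspForm.intLattice N 2 ↔ ∀ n : ℕ, ∃ m : ℤ, qC N 2 n f = (m : ℂ) :=
  P2MW.S_CuspForm_intLattice_fg.W3WsD.mem_intLattice_iff f

theorem qIntegralSet_subset (N : ℕ) :
    CuspForm.qIntegralSet N ⊆ (CuspForm.intLattice N 2 : Set (CuspForm Γ₀(N) 2)) := by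
  intro f hf
  rw [SetLike.mem_coe, mem_intLattice_iff']
  intro n
  obtain ⟨m, hm⟩ := Subring.mem_bot.mp (hf n)
  exact ⟨m, hm.symm⟩

theorem exists_finset_span [NeZero N] (h : CuspForm.HasIntegralBasis N) :
    ∃ G : Finset (CuspForm Γ₀(N) 2),
      Submodule.span ℤ (G : Set (CuspForm Γ₀(N) 2)) = CuspForm.intLattice N 2 ∧
      Submodule.span ℂ (G : Set (CuspForm Γ₀(N) 2)) = ⊤ := by
  obtain ⟨G, hG⟩ := CuspForm.intLattice_fg N 2
  refine ⟨G, hG, ?_⟩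
  have h' : Submodule.span ℂ (CuspForm.qIntegralSet N) = ⊤ := h
  rw [eq_top_iff, ← h', ← Submodule.span_span_of_tower ℤ ℂ (G : Set (CuspForm Γ₀(N) 2)), hG]
  exact Submodule.span_mono (qIntegralSet_subset N)

theorem finiteDimensional_of_hasIntegralBasis [NeZero N] (h : CuspForm.HasIntegralBasis N) :
    FiniteDimensional ℂ (CuspForm Γ₀(N) 2) := by
  obtain ⟨G, -, hG⟩ := exists_finset_span h
  exact Module.finite_def.mpr ⟨G, hG⟩

theorem heckeAlgebra_finite [NeZero N] (h : CuspForm.HasIntegralBasis N) :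
    Module.Finite ℤ (CuspForm.heckeAlgebra N 2 ∅) := by
  classical
  obtain ⟨G, hG, hGtop⟩ := exists_finset_span h
  have hmem : ∀ (t : CuspForm.heckeAlgebra N 2 ∅) (g : G),
      (t : Module.End ℂ (CuspForm Γ₀(N) 2)) (g : CuspForm Γ₀(N) 2) ∈ CuspForm.intLattice N 2 := by
    intro t g
    refine CuspForm.mem_intLattice_of_mem_heckeAlgebra (by norm_num) t.2 ?_
    rw [← hG]
    exact Submodule.subset_span g.2
  let φ : CuspForm.heckeAlgebra N 2 ∅ →ₗ[ℤ] (G → CuspForm.intLattice N 2) :=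
    { toFun := fun t g => ⟨_, hmem t g⟩
      map_add' := fun s t => by
        funext g
        apply Subtype.ext
        simp
      map_smul' := fun c t => by
        funext g
        apply Subtype.ext
        simp }
  have hφ : Function.Injective φ := by
    intro s t hst
    apply Subtype.ext
    apply LinearMap.ext_on hGtop
    intro g hg
    have := congrArg Subtype.val (congrFun hst ⟨g, hg⟩)
    exact this
  have : Module.Finite ℤ (CuspForm.intLattice N 2) :=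
    Module.Finite.iff_fg.mpr (CuspForm.intLattice_fg N 2)
  exact Module.Finite.of_injective φ hφ

end lattice


section arithmetic

open EisensteinWeightOne

theorem int_dvd_T {a af : ℕ → ℤ} (hcong : ∀ n, (3 : ℤ) ∣ af n - a n) (ℓ n : ℕ) (e : ℤ)
    (he : (3 : ℤ) ∣ (ℓ : ℤ) - e)
    (h : a (ℓ * n) + e * (if ℓ ∣ n then a (n / ℓ) else 0) = a ℓ * a n) :
    (3 : ℤ) ∣ af (n * ℓ) + (if ℓ ∣ n then (ℓ : ℤ) * af (n / ℓ) else 0) - a ℓ * af n := by
  obtain ⟨u1, h1⟩ := hcong (n * ℓ)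
  obtain ⟨u2, h2⟩ := hcong (n / ℓ)
  obtain ⟨u3, h3⟩ := hcong n
  obtain ⟨u4, h4⟩ := he
  rw [mul_comm ℓ n] at h
  split_ifs at h ⊢ with hd
  · exact ⟨u1 + u4 * af (n / ℓ) + e * u2 - a ℓ * u3, by
      linear_combination h1 + af (n / ℓ) * h4 + e * h2 - a ℓ * h3 + h⟩
  · exact ⟨u1 - a ℓ * u3, by linear_combination h1 - a ℓ * h3 + h⟩

theorem int_dvd_U {a af : ℕ → ℤ} (hcong : ∀ n, (3 : ℤ) ∣ af n - a n) (q n : ℕ)
    (h : a (q * n) = a q * a n) :
    (3 : ℤ) ∣ af (n * q) - a q * af n := by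
  obtain ⟨u1, h1⟩ := hcong (n * q)
  obtain ⟨u3, h3⟩ := hcong n
  rw [mul_comm q n] at h
  exact ⟨u1 - a q * u3, by linear_combination h1 - a q * h3 + h⟩

theorem chi_cong (ℓ : ℕ) : (3 : ℤ) ∣ (ℓ : ℤ) - chiNegThree ℓ := by
  unfold chiNegThree
  split_ifs <;> omega

theorem three_dvd_bridgeProduct_sub (a : ℕ → ℤ) (n : ℕ) :
    (3 : ℤ) ∣ (bridgeProduct a).coeff n - a n := by
  have hE : e1Chi3In ℤ = 1 + PowerSeries.C (3 : ℤ) *
      PowerSeries.mk (fun n => if n = 0 then 0 else 2 * sigmaChi n) := by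
    ext k
    simp only [e1Chi3In, e1Chi3, PowerSeries.coeff_map, PowerSeries.coeff_mk, map_add,
      PowerSeries.coeff_one, PowerSeries.coeff_C_mul, Int.coe_castRingHom, Int.cast_id]
    split_ifs <;> ring
  have h2 : bridgeProduct a = PowerSeries.mk a + PowerSeries.C (3 : ℤ) *
      (PowerSeries.mk a * PowerSeries.mk (fun n => if n = 0 then 0 else 2 * sigmaChi n)) := by
    rw [bridgeProduct, hE]
    ring
  rw [h2, map_add, PowerSeries.coeff_mk, PowerSeries.coeff_C_mul, add_sub_cancel_left]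
  exact dvd_mul_right _ _

end arithmetic


section residual

open EisensteinWeightOne FormalHecke

variable {N : ℕ}

theorem third_heckeT_sub_mem {a : ℕ → ℤ}
    (heig : IsEigensystem (fun ℓ => if ℓ ∣ N then 0 else ((chiNegThree ℓ : ℤ) : ℤ)) a)
    {f₀ : CuspForm Γ₀(N) 2} {af : ℕ → ℤ} (haf : ∀ n, (af n : ℂ) = qC N 2 n f₀)
    (hcong : ∀ n, (3 : ℤ) ∣ af n - a n) {ℓ : ℕ} (hℓ : ℓ.Prime) (hℓN : ¬ ℓ ∣ N) :
    (3⁻¹ : ℂ) • (CuspForm.heckeTLin 2 hℓ hℓN f₀ - (a ℓ : ℂ) • f₀) ∈ CuspForm.intLattice N 2 := by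
  rw [mem_intLattice_iff']
  intro n
  have h := heig.2 ℓ hℓ n
  simp only [if_neg hℓN] at h
  obtain ⟨m, hm⟩ := int_dvd_T hcong ℓ n _ (chi_cong ℓ) h
  refine ⟨m, ?_⟩
  rw [map_smul, map_sub, map_smul, qC_heckeT, ← haf, ← haf, ← haf]
  have hm' := congrArg (Int.cast : ℤ → ℂ) hm
  push_cast at hm'
  simp only [smul_eq_mul]
  rw [hm']
  field_simp

variable [NeZero N]

theorem third_heckeU_sub_mem {a : ℕ → ℤ}
    (heig : IsEigensystem (fun ℓ => if ℓ ∣ N then 0 else ((chiNegThree ℓ : ℤ) : ℤ)) a)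
    {f₀ : CuspForm Γ₀(N) 2} {af : ℕ → ℤ} (haf : ∀ n, (af n : ℂ) = qC N 2 n f₀)
    (hcong : ∀ n, (3 : ℤ) ∣ af n - a n) {q : ℕ} (hq : q.Prime) (hqN : q ∣ N) :
    (3⁻¹ : ℂ) • (CuspForm.heckeULin 2 hqN f₀ - (a q : ℂ) • f₀) ∈ CuspForm.intLattice N 2 := by
  rw [mem_intLattice_iff']
  intro n
  have h := heig.2 q hq n
  simp only [if_pos hqN, zero_mul, add_zero] at h
  obtain ⟨m, hm⟩ := int_dvd_U hcong q n h
  refine ⟨m, ?_⟩
  rw [map_smul, map_sub, map_smul, qC_heckeU hq, ← haf, ← haf]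
  have hm' := congrArg (Int.cast : ℤ → ℂ) hm
  push_cast at hm'
  simp only [smul_eq_mul]
  rw [hm']
  field_simp

theorem exists_int_third_sub_mem {a : ℕ → ℤ}
    (heig : IsEigensystem (fun ℓ => if ℓ ∣ N then 0 else ((chiNegThree ℓ : ℤ) : ℤ)) a)
    {f₀ : CuspForm Γ₀(N) 2} {af : ℕ → ℤ} (haf : ∀ n, (af n : ℂ) = qC N 2 n f₀)
    (hcong : ∀ n, (3 : ℤ) ∣ af n - a n)
    (t : Module.End ℂ (CuspForm Γ₀(N) 2)) (ht : t ∈ CuspForm.heckeAlgebra N 2 ∅) :
    ∃ c : ℤ, (3⁻¹ : ℂ) • (t f₀ - (c : ℂ) • f₀) ∈ CuspForm.intLattice N 2 := by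
  induction ht using Algebra.adjoin_induction with
  | mem x hx =>
    rcases hx with ⟨ℓ, hℓ, hℓN, -, rfl⟩ | ⟨q, hqN, hq, -, rfl⟩
    · exact ⟨a ℓ, third_heckeT_sub_mem heig haf hcong hℓ hℓN⟩
    · exact ⟨a q, third_heckeU_sub_mem heig haf hcong hq hqN⟩
  | algebraMap r =>
    refine ⟨r, ?_⟩
    have h1 : (algebraMap ℤ (Module.End ℂ (CuspForm Γ₀(N) 2)) r) f₀ = (r : ℂ) • f₀ := by
      rw [Module.algebraMap_end_apply, Int.cast_smul_eq_zsmul]
    rw [h1, sub_self, smul_zero]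
    exact zero_mem _
  | add x y hx hy ihx ihy =>
    obtain ⟨c₁, h₁⟩ := ihx
    obtain ⟨c₂, h₂⟩ := ihy
    refine ⟨c₁ + c₂, ?_⟩
    have h3 : (3⁻¹ : ℂ) • ((x + y) f₀ - ((c₁ + c₂ : ℤ) : ℂ) • f₀) =
        (3⁻¹ : ℂ) • (x f₀ - (c₁ : ℂ) • f₀) + (3⁻¹ : ℂ) • (y f₀ - (c₂ : ℂ) • f₀) := by
      rw [LinearMap.add_apply, Int.cast_add]
      module
    rw [h3]
    exact add_mem h₁ h₂
  | mul x y hx hy ihx ihy =>
    obtain ⟨c₁, h₁⟩ := ihx
    obtain ⟨c₂, h₂⟩ := ihy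
    refine ⟨c₁ * c₂, ?_⟩
    have h3 : (3⁻¹ : ℂ) • ((x * y) f₀ - ((c₁ * c₂ : ℤ) : ℂ) • f₀) =
        x ((3⁻¹ : ℂ) • (y f₀ - (c₂ : ℂ) • f₀)) +
          c₂ • ((3⁻¹ : ℂ) • (x f₀ - (c₁ : ℂ) • f₀)) := by
      rw [Module.End.mul_apply, Int.cast_mul, map_smul, map_sub, map_smul,
        ← Int.cast_smul_eq_zsmul ℂ c₂ ((3⁻¹ : ℂ) • (x f₀ - (c₁ : ℂ) • f₀))]
      module
    rw [h3]
    exact add_mem (CuspForm.mem_intLattice_of_mem_heckeAlgebra (by norm_num) hx h₂)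
      (Submodule.smul_mem _ c₂ h₁)


/-- The ideal of Hecke operators sending `f₀` into three times the integral lattice. -/
def residualIdeal (N : ℕ) [NeZero N] (f₀ : CuspForm Γ₀(N) 2) :
    Ideal (CuspForm.heckeAlgebra N 2 ∅) where
  carrier := {t | (3⁻¹ : ℂ) • ((t : Module.End ℂ (CuspForm Γ₀(N) 2)) f₀) ∈
    CuspForm.intLattice N 2}
  zero_mem' := by
    show (3⁻¹ : ℂ) • ((0 : Module.End ℂ (CuspForm Γ₀(N) 2)) f₀) ∈ CuspForm.intLattice N 2
    simp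
  add_mem' := by
    intro s t hs ht
    show (3⁻¹ : ℂ) • (((s : Module.End ℂ (CuspForm Γ₀(N) 2)) +
      (t : Module.End ℂ (CuspForm Γ₀(N) 2))) f₀) ∈ CuspForm.intLattice N 2
    rw [LinearMap.add_apply, smul_add]
    exact add_mem hs ht
  smul_mem' := by
    intro s t ht
    show (3⁻¹ : ℂ) • (((s : Module.End ℂ (CuspForm Γ₀(N) 2)) *
      (t : Module.End ℂ (CuspForm Γ₀(N) 2))) f₀) ∈ CuspForm.intLattice N 2
    rw [Module.End.mul_apply, ← map_smul]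
    exact CuspForm.mem_intLattice_of_mem_heckeAlgebra (by norm_num) s.2 ht

theorem mem_residualIdeal (f₀ : CuspForm Γ₀(N) 2) (t : CuspForm.heckeAlgebra N 2 ∅) :
    t ∈ residualIdeal N f₀ ↔
      (3⁻¹ : ℂ) • ((t : Module.End ℂ (CuspForm Γ₀(N) 2)) f₀) ∈ CuspForm.intLattice N 2 :=
  Iff.rfl

theorem sub_int_mem_residualIdeal {f₀ : CuspForm Γ₀(N) 2} (t : CuspForm.heckeAlgebra N 2 ∅)
    (c : ℤ)
    (h : (3⁻¹ : ℂ) • ((t : Module.End ℂ (CuspForm Γ₀(N) 2)) f₀ - (c : ℂ) • f₀) ∈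
      CuspForm.intLattice N 2) :
    t - algebraMap ℤ (CuspForm.heckeAlgebra N 2 ∅) c ∈ residualIdeal N f₀ := by
  rw [mem_residualIdeal]
  have h1 : ((t - algebraMap ℤ (CuspForm.heckeAlgebra N 2 ∅) c :
      CuspForm.heckeAlgebra N 2 ∅) : Module.End ℂ (CuspForm Γ₀(N) 2)) f₀ =
      (t : Module.End ℂ (CuspForm Γ₀(N) 2)) f₀ - (c : ℂ) • f₀ := by
    have h2 : ((t - algebraMap ℤ (CuspForm.heckeAlgebra N 2 ∅) c :
      CuspForm.heckeAlgebra N 2 ∅) : Module.End ℂ (CuspForm Γ₀(N) 2)) =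
      (t : Module.End ℂ (CuspForm Γ₀(N) 2)) -
        algebraMap ℤ (Module.End ℂ (CuspForm Γ₀(N) 2)) c := rfl
    rw [h2, LinearMap.sub_apply, Module.algebraMap_end_apply, Int.cast_smul_eq_zsmul]
  rw [h1]
  exact h

theorem three_mem_residualIdeal {f₀ : CuspForm Γ₀(N) 2}
    (hf₀ : f₀ ∈ CuspForm.intLattice N 2) :
    (3 : CuspForm.heckeAlgebra N 2 ∅) ∈ residualIdeal N f₀ := by
  have h2 := sub_int_mem_residualIdeal (f₀ := f₀) 0 (-3) (by
    have : (3⁻¹ : ℂ) • (((0 : CuspForm.heckeAlgebra N 2 ∅) :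
        Module.End ℂ (CuspForm Γ₀(N) 2)) f₀ - ((-3 : ℤ) : ℂ) • f₀) = f₀ := by
      have h0 : (((0 : CuspForm.heckeAlgebra N 2 ∅) :
        Module.End ℂ (CuspForm Γ₀(N) 2)) f₀) = 0 := rfl
      rw [h0]
      push_cast
      module
    rw [this]
    exact hf₀)
  simpa using h2

theorem residualIdeal_isMaximal {a : ℕ → ℤ}
    (heig : IsEigensystem (fun ℓ => if ℓ ∣ N then 0 else ((chiNegThree ℓ : ℤ) : ℤ)) a)
    {f₀ : CuspForm Γ₀(N) 2} {af : ℕ → ℤ} (haf : ∀ n, (af n : ℂ) = qC N 2 n f₀)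
    (hcong : ∀ n, (3 : ℤ) ∣ af n - a n) : (residualIdeal N f₀).IsMaximal := by
  have hf₀ : f₀ ∈ CuspForm.intLattice N 2 :=
    (mem_intLattice_iff' f₀).mpr fun n => ⟨af n, (haf n).symm⟩
  have h1 : (1 : CuspForm.heckeAlgebra N 2 ∅) ∉ residualIdeal N f₀ := by
    intro h
    have h' : (3⁻¹ : ℂ) • f₀ ∈ CuspForm.intLattice N 2 := h
    obtain ⟨m, hm⟩ := (mem_intLattice_iff' _).mp h' 1
    rw [map_smul, ← haf, smul_eq_mul] at hm
    have h3 : af 1 = 3 * m := by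
      have : (af 1 : ℂ) = 3 * (m : ℂ) := by
        rw [← hm]
        field_simp
      exact_mod_cast this
    obtain ⟨u, hu⟩ := hcong 1
    rw [heig.1] at hu
    omega
  have h3mem := three_mem_residualIdeal hf₀
  rw [Ideal.isMaximal_iff]
  refine ⟨h1, ?_⟩
  intro J x hJ hx hxJ
  obtain ⟨c, hc⟩ := exists_int_third_sub_mem heig haf hcong x x.2
  have hxc := sub_int_mem_residualIdeal x c hc
  have hcJ : algebraMap ℤ (CuspForm.heckeAlgebra N 2 ∅) c ∈ J := by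
    have := J.sub_mem hxJ (hJ hxc)
    simpa using this
  have hc3 : ¬ (3 : ℤ) ∣ c := by
    rintro ⟨c', rfl⟩
    apply hx
    rw [mem_residualIdeal]
    have h4 : (3⁻¹ : ℂ) • ((x : Module.End ℂ (CuspForm Γ₀(N) 2)) f₀) =
        (3⁻¹ : ℂ) • ((x : Module.End ℂ (CuspForm Γ₀(N) 2)) f₀ - ((3 * c' : ℤ) : ℂ) • f₀) +
          c' • f₀ := by
      rw [← Int.cast_smul_eq_zsmul ℂ c' f₀]
      push_cast
      module
    rw [h4]
    exact add_mem hc (Submodule.smul_mem _ c' hf₀)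
  have hcop : IsCoprime (3 : ℤ) c :=
    (Int.prime_three.irreducible.coprime_iff_not_dvd).mpr hc3
  obtain ⟨u, v, huv⟩ := hcop
  have h5 : (1 : CuspForm.heckeAlgebra N 2 ∅) =
      algebraMap ℤ (CuspForm.heckeAlgebra N 2 ∅) u * 3 +
        algebraMap ℤ (CuspForm.heckeAlgebra N 2 ∅) v *
          algebraMap ℤ (CuspForm.heckeAlgebra N 2 ∅) c := by
    have := congrArg (algebraMap ℤ (CuspForm.heckeAlgebra N 2 ∅)) huv
    simpa using this.symm
  rw [h5]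
  exact J.add_mem (J.mul_mem_left _ (hJ h3mem)) (J.mul_mem_left _ hcJ)

theorem exists_eigenform_data (h : CuspForm.HasIntegralBasis N) {a : ℕ → ℤ}
    (heig : IsEigensystem (fun ℓ => if ℓ ∣ N then 0 else ((chiNegThree ℓ : ℤ) : ℤ)) a)
    {f₀ : CuspForm Γ₀(N) 2} {af : ℕ → ℤ} (haf : ∀ n, (af n : ℂ) = qC N 2 n f₀)
    (hcong : ∀ n, (3 : ℤ) ∣ af n - a n) :
    ∃ (v : CuspForm Γ₀(N) 2) (χ : CuspForm.heckeAlgebra N 2 ∅ →+* integralClosure ℤ ℂ)
      (𝔪 : Ideal (integralClosure ℤ ℂ)),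
      v ≠ 0 ∧ 𝔪.IsMaximal ∧
      (∀ t : CuspForm.heckeAlgebra N 2 ∅,
        (t : Module.End ℂ (CuspForm Γ₀(N) 2)) v = ((χ t : integralClosure ℤ ℂ) : ℂ) • v) ∧
      𝔪.comap χ = residualIdeal N f₀ := by
  have hfd := finiteDimensional_of_hasIntegralBasis h
  have hfin := heckeAlgebra_finite h
  have hnoeth : IsNoetherianRing (CuspForm.heckeAlgebra N 2 ∅) :=
    isNoetherian_of_tower ℤ (isNoetherian_of_isNoetherianRing_of_finite ℤ _)
  have hint : Algebra.IsIntegral ℤ (CuspForm.heckeAlgebra N 2 ∅) := Algebra.IsIntegral.of_finite ℤ _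
  have hmax := residualIdeal_isMaximal heig haf hcong
  let φ : CuspForm.heckeAlgebra N 2 ∅ →+* Module.End ℂ (CuspForm Γ₀(N) 2) :=
    (CuspForm.heckeAlgebra N 2 ∅).val.toRingHom
  obtain ⟨v, hv, χ, hχ, hker⟩ :=
    exists_eigenvector_ker_le φ Subtype.val_injective (residualIdeal N f₀)
  obtain ⟨χ', hχ', 𝔪, h𝔪, hcomap⟩ := exists_maximal_over χ (residualIdeal N f₀) hker
  exact ⟨v, χ', 𝔪, hv, h𝔪, fun t => by rw [hχ']; exact hχ t, hcomap⟩

end residual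

end Fermat.Agent.S49
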