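import Mathlib
import Fermat.Prelude.Def_FormalHecke_Eigensystem

set_option autoImplicit false

namespace Fermat.Agent.S49

open FormalHecke

variable {R : Type*} [CommRing R]

/-- A formal Hecke eigensystem is multiplicative on coprime arguments. -/
theorem mul_of_coprime_of_isEigensystem {e a : ℕ → R} (h : IsEigensystem e a) :
    ∀ m n : ℕ, m.Coprime n → a (m * n) = a m * a n := by
  obtain ⟨h1, hrec⟩ := h
  intro m
  induction m using Nat.strong_induction_on with
  | _ m ih =>
    intro n hmn
    rcases Nat.lt_or_ge m 2 with hm | hm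
    · interval_cases m
      · have : n = 1 := by simpa using hmn
        subst this
        simp [h1]
      · simp [h1]
    · have hℓ : (m.minFac).Prime := Nat.minFac_prime (by omega)
      set ℓ := m.minFac with hℓdef
      obtain ⟨m', hm'⟩ : ℓ ∣ m := Nat.minFac_dvd m
      have hℓ2 : 2 ≤ ℓ := hℓ.two_le
      have hm'pos : 0 < m' := by
        rcases Nat.eq_zero_or_pos m' with h0 | h0
        · subst h0; omega
        · exact h0
      have hm'lt : m' < m := by
        rw [hm']
        nlinarith
      have hcop : (ℓ * m').Coprime n := hm' ▸ hmn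
      have hcopℓ : ℓ.Coprime n := Nat.Coprime.coprime_mul_right hcop
      have hcopm' : m'.Coprime n := Nat.Coprime.coprime_mul_left hcop
      have hℓn : ¬ ℓ ∣ n := (Nat.Prime.coprime_iff_not_dvd hℓ).mp hcopℓ
      have e1 := hrec ℓ hℓ (m' * n)
      have e2 := hrec ℓ hℓ m'
      have e3 := ih m' hm'lt n hcopm'
      rw [hm', mul_assoc]
      by_cases hd : ℓ ∣ m'
      · obtain ⟨m'', hm''⟩ := hd
        have hm''lt : m'' < m := by
          rw [hm', hm'']
          have : 0 < m'' := by
            rcases Nat.eq_zero_or_pos m'' with h0 | h0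
            · subst h0; omega
            · exact h0
          nlinarith
        have hcopm'' : m''.Coprime n := by
          rw [hm''] at hcopm'
          exact Nat.Coprime.coprime_mul_left hcopm'
        have e4 := ih m'' hm''lt n hcopm''
        have hdvd1 : ℓ ∣ m' * n := Dvd.dvd.mul_right ⟨m'', hm''⟩ n
        have hdvd2 : ℓ ∣ m' := ⟨m'', hm''⟩
        have hdiv1 : m' * n / ℓ = m'' * n := by
          rw [hm'', mul_assoc, Nat.mul_div_cancel_left _ hℓ.pos]
        have hdiv2 : m' / ℓ = m'' := by
          rw [hm'', Nat.mul_div_cancel_left _ hℓ.pos]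
        rw [if_pos hdvd1, hdiv1, e4, e3] at e1
        rw [if_pos hdvd2, hdiv2] at e2
        linear_combination e1 - a n * e2
      · have hnd : ¬ ℓ ∣ m' * n := fun hc =>
          (hℓ.dvd_mul.mp hc).elim hd hℓn
        rw [if_neg hnd, e3] at e1
        rw [if_neg hd] at e2
        linear_combination e1 - a n * e2

/-- The prime power recursion of a formal Hecke eigensystem. -/
theorem prime_pow_of_isEigensystem {e a : ℕ → R} (h : IsEigensystem e a) (ℓ r : ℕ)
    (hℓ : ℓ.Prime) : a (ℓ ^ (r + 2)) = a ℓ * a (ℓ ^ (r + 1)) - e ℓ * a (ℓ ^ r) := by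
  have e1 := h.2 ℓ hℓ (ℓ ^ (r + 1))
  have hdvd : ℓ ∣ ℓ ^ (r + 1) := dvd_pow_self ℓ (Nat.succ_ne_zero r)
  have hdiv : ℓ ^ (r + 1) / ℓ = ℓ ^ r := by
    rw [pow_succ, Nat.mul_div_cancel _ hℓ.pos]
  have hpow : ℓ * ℓ ^ (r + 1) = ℓ ^ (r + 2) := by ring
  rw [if_pos hdvd, hdiv, hpow] at e1
  linear_combination e1

/-- A sequence satisfying the Hecke relations (with arbitrary eigenvalues `lam`) which vanishes
at `0` and `1` vanishes identically. -/
theorem eq_zero_of_hecke_relations {e lam b : ℕ → R}
    (hrec : ∀ ℓ : ℕ, ℓ.Prime → ∀ n : ℕ,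
      b (ℓ * n) + e ℓ * (if ℓ ∣ n then b (n / ℓ) else 0) = lam ℓ * b n)
    (h0 : b 0 = 0) (h1 : b 1 = 0) : ∀ n, b n = 0 := by
  intro n
  induction n using Nat.strong_induction_on with
  | _ n ih =>
    rcases Nat.lt_or_ge n 2 with hn | hn
    · interval_cases n
      · exact h0
      · exact h1
    · have hℓ : (n.minFac).Prime := Nat.minFac_prime (by omega)
      set ℓ := n.minFac with hℓdef
      obtain ⟨m, hm⟩ : ℓ ∣ n := Nat.minFac_dvd n
      have hℓ2 : 2 ≤ ℓ := hℓ.two_le
      have hmpos : 0 < m := by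
        rcases Nat.eq_zero_or_pos m with h0 | h0
        · subst h0; omega
        · exact h0
      have hmlt : m < n := by
        rw [hm]
        nlinarith
      have e1 := hrec ℓ hℓ m
      have e2 := ih m hmlt
      have e3 : b (m / ℓ) = 0 := ih _ (lt_of_le_of_lt (Nat.div_le_self m ℓ) hmlt)
      rw [hm]
      rw [e2, e3] at e1
      simpa using e1

end Fermat.Agent.S49
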